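/-
Project BAD, block LevelQ (owner helper39): SKELETON of the abstract part.
WIP: contains `sorry`; never import from landed files.  Each section is one task; the final file is
indicated in the section header.
-/
import Mathlib
import Fermat.Agent.S18.Defs
import Fermat.Agent.BAD.LevelQ.Defs

set_option autoImplicit false

noncomputable section

namespace Fermat.Agent.BAD.LevelQ

open Polynomial IntermediateField Fermat.Agent.S18

/-! ## LQ-LAT1 : `BAD/LevelQ/Abs/Lattice.lean` (Mathlib + S18/Defs) -/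
section LAT

variable {E F : Type*} [Field E] [Field F] [Algebra E F]
  {R : ValuationSubring E} {ϖ : E} {ι : Type*} {V : ι → ValuationSubring F} {n : ℕ}

/-- scaling a finite family: not all zero => after division by a power of `ϖ` all are integral and
one is a unit. -/
theorem exists_scale (hR : IsUnif R ϖ) (a : Fin n → E) (ha : ∃ j, a j ≠ 0) :
    ∃ m : ℤ, (∀ j, a j / ϖ ^ m ∈ R) ∧ ∃ j, a j / ϖ ^ m / ϖ ∉ R := by
  sorry

/-- **Lattice lemma.** -/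
theorem lattice_of_ind [FiniteDimensional E F] [Nonempty ι] (hR : IsUnif R ϖ)
    (hRV : ∀ c, ∀ r ∈ R, algebraMap E F r ∈ V c)
    (hn : Module.finrank E F ≤ n) (Y : Fin n → F)
    (hind : ∀ a : Fin n → E, (∀ j, a j ∈ R) →
      (∀ c, (∑ j, algebraMap E F (a j) * Y j) / algebraMap E F ϖ ∈ V c) → ∀ j, a j / ϖ ∈ R)
    (y : F) (hy : ∀ c, y ∈ V c) :
    ∃ a : Fin n → E, (∀ j, a j ∈ R) ∧ y = ∑ j, algebraMap E F (a j) * Y j := by
  sorry

/-- a subring of `F` contained in a finitely generated `R`-module is integral over `R`. -/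
theorem integral_of_lattice (hRV : ∀ c, ∀ r ∈ R, algebraMap E F r ∈ V c) (Y : Fin n → F)
    (hY : ∀ j c, Y j ∈ V c)
    (hlat : ∀ y : F, (∀ c, y ∈ V c) →
      ∃ a : Fin n → E, (∀ j, a j ∈ R) ∧ y = ∑ j, algebraMap E F (a j) * Y j)
    (y : F) (hy : ∀ c, y ∈ V c) :
    ∃ p : E[X], p.Monic ∧ (∀ i, p.coeff i ∈ R) ∧ aeval y p = 0 := by
  sorry

end LAT

/-! ## LQ-LAT2 : `BAD/LevelQ/Abs/Two.lean` (uses LAT1): two valuations, `(e,f) = (1,1), (1,n-1)` -/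
section TWO

variable {E F : Type*} [Field E] [Field F] [Algebra E F]
  {R : ValuationSubring E} {ϖ : E} {V₁ V₂ : ValuationSubring F}

/-- The hypotheses: `e ≡ 1 (V₁)`, `e ≡ 0 (V₂)`, and `1, θ, …, θ^(d-1)` are independent in the residue
field of `V₂` over the residue field of `R`; `[F : E] ≤ d + 1`. -/
structure TwoHyp (R : ValuationSubring E) (ϖ : E) (V₁ V₂ : ValuationSubring F) (d : ℕ) (e θ : F) :
    Prop where
  unif : IsUnif R ϖ
  unif₁ : IsUnif V₁ (algebraMap E F ϖ)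
  unif₂ : IsUnif V₂ (algebraMap E F ϖ)
  le₁ : ∀ r ∈ R, algebraMap E F r ∈ V₁
  le₂ : ∀ r ∈ R, algebraMap E F r ∈ V₂
  finite : FiniteDimensional E F
  finrank_le : Module.finrank E F ≤ d + 1
  e₁ : V₁.valuation (e - 1) < 1
  e₂ : V₂.valuation e < 1
  θ₁ : θ ∈ V₁
  θ₂ : θ ∈ V₂
  ind : ∀ a : Fin d → E, (∀ i, a i ∈ R) →
    V₂.valuation (∑ i, algebraMap E F (a i) * θ ^ (i : ℕ)) < 1 → ∀ i, R.valuation (a i) < 1

variable {d : ℕ} {e θ : F}

/-- completeness -/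
theorem TwoHyp.integral (H : TwoHyp R ϖ V₁ V₂ d e θ) (y : F) (h₁ : y ∈ V₁) (h₂ : y ∈ V₂) :
    ∃ p : E[X], p.Monic ∧ (∀ i, p.coeff i ∈ R) ∧ aeval y p = 0 := by
  sorry

/-- `f = 1` at `V₁` -/
theorem TwoHyp.dense₁ (H : TwoHyp R ϖ V₁ V₂ d e θ) (y : F) (h₁ : y ∈ V₁) :
    ∃ r ∈ R, V₁.valuation (y - algebraMap E F r) < 1 := by
  sorry

/-- the residue field of `V₂` is generated by `θ` -/
theorem TwoHyp.dense₂ (H : TwoHyp R ϖ V₁ V₂ d e θ) (y : F) (h₂ : y ∈ V₂) :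
    ∃ a : Fin d → E, (∀ i, a i ∈ R) ∧
      V₂.valuation (y - ∑ i, algebraMap E F (a i) * θ ^ (i : ℕ)) < 1 := by
  sorry

theorem TwoHyp.finrank_eq (H : TwoHyp R ϖ V₁ V₂ d e θ) : Module.finrank E F = d + 1 := by
  sorry

end TWO

variable {K₀ F : Type*} [Field K₀] [Field F] [Algebra K₀ F]
variable {A₀ : ValuationSubring K₀} {ϖ₀ : K₀} {ι : Type*} {V : ι → ValuationSubring F}
variable {E : IntermediateField K₀ F} {x : F}

/-! ## LQ-CO : `BAD/LevelQ/Abs/Coord.lean` : calculus of `IsMCoord` -/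
section COORD

variable {W : ValuationSubring F}

theorem IsMCoord.valuation_eq_one (hx : IsMCoord A₀ W x) : W.valuation x = 1 := by
  sorry

theorem IsMCoord.transcendental (hx : IsMCoord A₀ W x) : Transcendental K₀ x := by
  sorry

theorem IsMCoord.inv (hx : IsMCoord A₀ W x) : IsMCoord A₀ W x⁻¹ := by
  sorry

/-- a primitive polynomial in `x` is a unit of `W`. -/
theorem IsMCoord.valuation_aeval_eq_one (hx : IsMCoord A₀ W x)
    (hc : ∀ a ∈ A₀, algebraMap K₀ F a ∈ W) {p : K₀[X]} (hp : ∀ i, p.coeff i ∈ A₀)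
    (hp1 : ∃ i, A₀.valuation (p.coeff i) = 1) : W.valuation (aeval x p) = 1 := by
  sorry

/-- comparison with `S18.IsCoord`. -/
theorem IsMCoord.isCoord (h₀ : IsUnif A₀ ϖ₀) (hx : IsMCoord A₀ W x)
    (hϖ : W.valuation (algebraMap K₀ F ϖ₀) < 1) : IsCoord A₀ ϖ₀ W K₀⟮x⟯ x := by
  sorry

theorem isMCoord_of_isCoord (h₀ : IsUnif A₀ ϖ₀) (hU : IsUnif W (algebraMap K₀ F ϖ₀))
    (hx : IsCoord A₀ ϖ₀ W E x) : IsMCoord A₀ W x := by
  sorry

/-- `K₀[x] ∩ W = A₀[x]`. -/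
theorem IsMCoord.mem_polyRing (h₀ : IsUnif A₀ ϖ₀) (hx : IsMCoord A₀ W x)
    (hc : ∀ a ∈ A₀, algebraMap K₀ F a ∈ W) (hϖ : W.valuation (algebraMap K₀ F ϖ₀) < 1) {z : F}
    (hz : z ∈ polyRing (⊤ : Subring K₀) x) (hzW : z ∈ W) : z ∈ polyRing A₀.toSubring x := by
  sorry

/-- the elements of `K₀(x) ∩ W` are the fractions `p(x) / d(x)`, `d` primitive. -/
theorem IsMCoord.exists_frac (h₀ : IsUnif A₀ ϖ₀) (hx : IsMCoord A₀ W x)
    (hc : ∀ a ∈ A₀, algebraMap K₀ F a ∈ W) (hϖ : W.valuation (algebraMap K₀ F ϖ₀) < 1) {z : F}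
    (hz : z ∈ K₀⟮x⟯) (hzW : z ∈ W) :
    ∃ p d : K₀[X], (∀ i, p.coeff i ∈ A₀) ∧ (∀ i, d.coeff i ∈ A₀) ∧
      (∃ i, A₀.valuation (d.coeff i) = 1) ∧ z * aeval x d = aeval x p := by
  sorry

end COORD

/-! ## LQ-MC1 : `BAD/LevelQ/Abs/Mem.lean` (generalises KLA-CH2 `S18/Chart/Mem.lean`) -/
section MEM

theorem chart_le (hV : IsMVert A₀ ϖ₀ V E) (hx : ∀ c, x ∈ V c) (c : ι) :
    ∀ b ∈ chart A₀.toSubring x, b ∈ V c := by
  sorry

theorem mem_chart_iff [Nonempty ι] (hV : IsMVert A₀ ϖ₀ V K₀⟮x⟯) (hx : ∀ c, IsMCoord A₀ (V c) x)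
    (z : F) :
    z ∈ chart A₀.toSubring x ↔ (∀ c, z ∈ V c) ∧ z ∈ chart (⊤ : Subring K₀) x := by
  sorry

theorem chart_qep [Nonempty ι] (hV : IsMVert A₀ ϖ₀ V K₀⟮x⟯) (hx : ∀ c, IsMCoord A₀ (V c) x)
    (y : F) (h : algebraMap K₀ F ϖ₀ * y ∈ chart A₀.toSubring x) (hy : ∀ c, y ∈ V c) :
    y ∈ chart A₀.toSubring x := by
  sorry

end MEM

/-! ## LQ-MC2 : `BAD/LevelQ/Abs/Finite.lean` (generalises KLA-CH4 `S18/Chart/Finite.lean`) -/
section FIN

theorem chart_fin [CharZero K₀] (h₀ : IsUnif A₀ ϖ₀) (hx : Transcendental K₀ x)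
    [FiniteDimensional K₀⟮x⟯ F] :
    ∃ S : Finset F, (∀ e ∈ S, e ∈ chart A₀.toSubring x) ∧
      ∀ b ∈ chart A₀.toSubring x, b ∈ Submodule.span (A₀.toSubring.map (algebraMap K₀ F))
        {y : F | ∃ (a : ℕ) (e : F), e ∈ S ∧ y = x ^ a * e} := by
  sorry

theorem chart_noeth [CharZero K₀] (h₀ : IsUnif A₀ ϖ₀) (hx : Transcendental K₀ x)
    [FiniteDimensional K₀⟮x⟯ F] : IsNoetherianRing (chart A₀.toSubring x) := by
  sorry

end FIN

/-! ## LQ-MC3 : `BAD/LevelQ/Abs/Loc.lean` (generalises `chart_loc` of KLA-CH3) -/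
section LOC

/-- clearing the horizontal denominators by a primitive polynomial. -/
theorem exists_primitive_mul_mem (h₀ : IsUnif A₀ ϖ₀) (hx : Transcendental K₀ x)
    [FiniteDimensional K₀⟮x⟯ F] (y : F) :
    ∃ d : K₀[X], (∀ i, d.coeff i ∈ A₀) ∧ (∃ i, A₀.valuation (d.coeff i) = 1) ∧
      aeval x d * y ∈ chart (⊤ : Subring K₀) x := by
  sorry

/-- separating elements inside the chart. -/
theorem exists_sep_chart [Nonempty ι] (hV : IsMVert A₀ ϖ₀ V K₀⟮x⟯)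
    (hx : ∀ c, IsMCoord A₀ (V c) x) (hsep : IsSep V) (c c' : ι) (h : c ≠ c') :
    ∃ e ∈ chart A₀.toSubring x, (V c).valuation e = 1 ∧ (V c').valuation e < 1 := by
  sorry

/-- `V c` is a localisation of the chart. -/
theorem chart_loc [Finite ι] [Nonempty ι] (hV : IsMVert A₀ ϖ₀ V K₀⟮x⟯)
    (hx : ∀ c, IsMCoord A₀ (V c) x) (hsep : IsSep V) (hU : ∀ c, ∃ ϖ : F, IsUnif (V c) ϖ) (c : ι) :
    ∀ y ∈ V c, ∃ s ∈ chart A₀.toSubring x, (V c).valuation s = 1 ∧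
      s * y ∈ chart A₀.toSubring x := by
  sorry

end LOC

/-! ## LQ-VC : `BAD/LevelQ/Abs/Valuative.lean` : valuative criterion for charts
(Mathlib `iInf_valuationSubring_superset`) -/
section VAL

theorem mem_chart_iff_forall_valuationSubring (S : Subring K₀) (x z : F) :
    z ∈ chart S x ↔ ∀ W : ValuationSubring F, (∀ a ∈ S, algebraMap K₀ F a ∈ W) → x ∈ W → z ∈ W := by
  sorry

theorem mem_chart_mul {S : Subring K₀} {a b : F} (h : a ∈ chart S b) : a ∈ chart S (a * b) := by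
  sorry

theorem inv_mem_chart_inv_mul {S : Subring K₀} {a b : F} (hab : a * b ≠ 0) (h : b ∈ chart S a) :
    a⁻¹ ∈ chart S (a * b)⁻¹ := by
  sorry

theorem chart_le_chart {S : Subring K₀} {x x' : F} (h : x ∈ chart S x') :
    chart S x ≤ chart S x' := by
  sorry

end VAL

/-! ## LQ-CRD : `BAD/LevelQ/Abs/Change.lean` : change of coordinate (uses CO, VC) -/
section CRD

variable {x₁ : F}

/-- the residue of `x` is transcendental as soon as `x₁` is integral over `A₀[x]`. -/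
theorem IsMCoord.of_mem_chart {W : ValuationSubring F} (h₀ : IsUnif A₀ ϖ₀)
    (hc : ∀ a ∈ A₀, algebraMap K₀ F a ∈ W) (hϖ : W.valuation (algebraMap K₀ F ϖ₀) < 1)
    (hx₁ : IsMCoord A₀ W x₁) (hxW : x ∈ W) (h1 : x₁ ∈ chart A₀.toSubring x) :
    IsMCoord A₀ W x := by
  sorry

/-- **Change of coordinate.** -/
theorem IsMVert.change [Nonempty ι] (hV : IsMVert A₀ ϖ₀ V K₀⟮x₁⟯)
    (hx₁ : ∀ c, IsMCoord A₀ (V c) x₁) (h1 : x₁ ∈ chart A₀.toSubring x)
    (h3 : x ∈ chart A₀.toSubring x₁) : IsMVert A₀ ϖ₀ V K₀⟮x⟯ := by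
  sorry

theorem IsMVert.inv (hV : IsMVert A₀ ϖ₀ V K₀⟮x⟯) : IsMVert A₀ ϖ₀ V K₀⟮x⁻¹⟯ := by
  sorry

end CRD

/-! ## LQ-TOW : `BAD/LevelQ/Abs/Tower.lean` : completeness in a tower -/
section TOW

variable {F' : Type*} [Field F'] [Algebra K₀ F'] {Ow' : ValuationSubring F'} {x' : F'}

/-- `S18.IsVert` is the case of one valuation. -/
theorem isMVert_of_isVert {E' : IntermediateField K₀ F'} (hV : IsVert A₀ ϖ₀ Ow' E') :
    IsMVert A₀ ϖ₀ (fun _ : Unit => Ow') E' := by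
  sorry

/-- If `Ow'` is the only vertical valuation of `F'` (relative to `K₀(x')`) and the `V c` are all
the valuations of `F` above `Ow'` (relative to `φ : F' → F`), then the `V c` are all the vertical
valuations of `F` relative to `K₀(φ x')`. -/
theorem isMVert_tower (φ : F' →ₐ[K₀] F) (hV' : IsVert A₀ ϖ₀ Ow' K₀⟮x'⟯)
    (hfin : letI := φ.toRingHom.toAlgebra; FiniteDimensional F' F)
    (hle : ∀ c, ∀ y ∈ Ow', φ y ∈ V c) (hlt : ∀ c, (V c).valuation (algebraMap K₀ F ϖ₀) < 1)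
    (hint : ∀ y : F, (∀ c, y ∈ V c) →
      ∃ p : F'[X], p.Monic ∧ (∀ i, p.coeff i ∈ Ow') ∧ (p.map φ.toRingHom).eval y = 0) :
    IsMVert A₀ ϖ₀ V K₀⟮φ x'⟯ := by
  sorry

end TOW

/-! ## LQ-RES : `BAD/LevelQ/Abs/Residue.lean` : residues of a good chart -/
section RES

variable {F' : Type*} [Field F'] {Ow' : ValuationSubring F'} {ϖ' : F'} {B' : Subring F'}

/-- the special fibre of a good chart is integrally closed in the residue field. -/
theorem IsChart.exists_congr_of_integral (hU : IsUnif Ow' ϖ') (hC : IsChart Ow' ϖ' B') {y : F'}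
    (hy : y ∈ Ow') (p : F'[X]) (hp : p.Monic) (hpB : ∀ i, p.coeff i ∈ B')
    (h : Ow'.valuation (p.eval y) < 1) : ∃ b ∈ B', Ow'.valuation (y - b) < 1 := by
  sorry

/-- `B / P_W = B' / ϖ'` when `f = 1`. -/
theorem IsChart.exists_congr_map (hU : IsUnif Ow' ϖ') (hC : IsChart Ow' ϖ' B') (φ : F' →+* F)
    (W : ValuationSubring F) (hφ : ∀ y', φ y' ∈ W ↔ y' ∈ Ow')
    (hdense : ∀ y ∈ W, ∃ y' ∈ Ow', W.valuation (y - φ y') < 1) {b : F} (hbW : b ∈ W)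
    (p : F'[X]) (hp : p.Monic) (hpB : ∀ i, p.coeff i ∈ B') (h : (p.map φ).eval b = 0) :
    ∃ b' ∈ B', W.valuation (b - φ b') < 1 := by
  sorry

/-- local parameters on the special fibre. -/
theorem IsChart.exists_local_param (hU : IsUnif Ow' ϖ') (hC : IsChart Ow' ϖ' B') (𝔫 : Ideal B')
    [𝔫.IsMaximal] (h𝔫 : ∀ ϖB : B', (ϖB : F') = ϖ' → ϖB ∈ 𝔫) :
    ∃ t ∈ 𝔫, ∀ y ∈ 𝔫, ∃ r s : B', s ∉ 𝔫 ∧ Ow'.valuation ((s : F') * y - r * t) < 1 := by
  sorry

end RES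

end Fermat.Agent.BAD.LevelQ
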