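/-
Project BAD, block LevelQ (owner helper39): SKELETON of the consequences of the hub `LQ`.
Each section = one task = one file `BAD/LevelQ/Hub/<Name>.lean` (copy the statements VERBATIM).
-/
import Fermat.Agent.BAD.LevelQ.Hub
import Fermat.Agent.BAD.LevelQ.Abs.Mem
import Fermat.Agent.BAD.LevelQ.Abs.Coord
import Fermat.Agent.BAD.LevelQ.Abs.Change
import Fermat.Agent.BAD.LevelQ.Abs.Valuative
import Fermat.Agent.BAD.LevelQ.Abs.Finite
import Fermat.Agent.BAD.LevelQ.Abs.Residue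

set_option autoImplicit false

noncomputable section

namespace Fermat.Agent.BAD.LevelQ

open Polynomial IntermediateField Fermat.Agent.S18

variable {K₀ F' F : Type*} [Field K₀] [Field F'] [Field F] [Algebra K₀ F'] [Algebra K₀ F]
variable {A₀ : ValuationSubring K₀} {ϖ₀ : K₀} {q : ℕ} {al be : F' →ₐ[K₀] F} {w : F ≃ₐ[K₀] F}
  {γ : F' →+* F'} {Ow' : ValuationSubring F'} {V : Fin 2 → ValuationSubring F} {x' : F'}

/-! ### Sym : the symmetry `w` (file Hub/Sym.lean) -/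
section Sym

theorem LQ.val_one_lt (H : LQ A₀ ϖ₀ q al be w γ Ow' V x') (y : F) :
    (V 1).valuation y < 1 ↔ (V 0).valuation (w y) < 1 := sorry

theorem LQ.val_one_eq (H : LQ A₀ ϖ₀ q al be w γ Ow' V x') (y : F) :
    (V 1).valuation y = 1 ↔ (V 0).valuation (w y) = 1 := sorry

theorem LQ.mem_zero_iff (H : LQ A₀ ϖ₀ q al be w γ Ow' V x') (y : F) : y ∈ V 0 ↔ w y ∈ V 1 := sorry

/-- The swapped structure: `al ↔ be`, `V 0 ↔ V 1`. -/
theorem LQ.swap (H : LQ A₀ ϖ₀ q al be w γ Ow' V x') :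
    LQ A₀ ϖ₀ q be al w γ Ow' ![V 1, V 0] x' := sorry

theorem map_mem_chart_algEquiv (w : F ≃ₐ[K₀] F) (S : Subring K₀) {z y : F} (h : y ∈ chart S z) :
    w y ∈ chart S (w z) := sorry

theorem map_mem_chart_algHom (φ : F' →ₐ[K₀] F) (S : Subring K₀) {z y : F'} (h : y ∈ chart S z) :
    φ y ∈ chart S (φ z) := sorry

end Sym

/-! ### Basic : coordinates and charts (file Hub/Basic.lean) -/
section Basic

theorem LQ.unif_all (H : LQ A₀ ϖ₀ q al be w γ Ow' V x') (c : Fin 2) :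
    IsUnif (V c) (algebraMap K₀ F ϖ₀) := sorry

theorem LQ.al_mem_iff (H : LQ A₀ ϖ₀ q al be w γ Ow' V x') (c : Fin 2) (f : F') :
    al f ∈ V c ↔ f ∈ Ow' := sorry

theorem LQ.be_mem_iff (H : LQ A₀ ϖ₀ q al be w γ Ow' V x') (c : Fin 2) (f : F') :
    be f ∈ V c ↔ f ∈ Ow' := sorry

theorem LQ.val_al_lt (H : LQ A₀ ϖ₀ q al be w γ Ow' V x') (c : Fin 2) (f : F') :
    (V c).valuation (al f) < 1 ↔ Ow'.valuation f < 1 := sorry

theorem LQ.val_be_lt (H : LQ A₀ ϖ₀ q al be w γ Ow' V x') (c : Fin 2) (f : F') :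
    (V c).valuation (be f) < 1 ↔ Ow'.valuation f < 1 := sorry

theorem LQ.isMCoord_al (H : LQ A₀ ϖ₀ q al be w γ Ow' V x') (c : Fin 2) :
    IsMCoord A₀ (V c) (al x') := sorry

theorem LQ.isMCoord_be (H : LQ A₀ ϖ₀ q al be w γ Ow' V x') (c : Fin 2) :
    IsMCoord A₀ (V c) (be x') := sorry

theorem LQ.be_mem_chart_al (H : LQ A₀ ϖ₀ q al be w γ Ow' V x') :
    be x' ∈ chart A₀.toSubring (al x') := sorry

theorem LQ.al_mem_chart_be (H : LQ A₀ ϖ₀ q al be w γ Ow' V x') :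
    al x' ∈ chart A₀.toSubring (be x') := sorry

theorem LQ.chart_al_eq (H : LQ A₀ ϖ₀ q al be w γ Ow' V x') :
    chart A₀.toSubring (al x') = ch₁ A₀ al be x' := sorry

theorem LQ.chart_be_eq (H : LQ A₀ ϖ₀ q al be w γ Ow' V x') :
    chart A₀.toSubring (be x') = ch₁ A₀ al be x' := sorry

theorem LQ.isMVert (H : LQ A₀ ϖ₀ q al be w γ Ow' V x') :
    IsMVert A₀ ϖ₀ V K₀⟮xx al be x'⟯ := sorry

theorem LQ.isMCoord (H : LQ A₀ ϖ₀ q al be w γ Ow' V x') (c : Fin 2) :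
    IsMCoord A₀ (V c) (xx al be x') := sorry

theorem LQ.w_xx (H : LQ A₀ ϖ₀ q al be w γ Ow' V x') : w (xx al be x') = xx al be x' := sorry

theorem LQ.w_mem_ch₁ (H : LQ A₀ ϖ₀ q al be w γ Ow' V x') {y : F} (hy : y ∈ ch₁ A₀ al be x') :
    w y ∈ ch₁ A₀ al be x' := sorry

theorem LQ.w_mem_ch₂ (H : LQ A₀ ϖ₀ q al be w γ Ow' V x') {y : F} (hy : y ∈ ch₂ A₀ al be x') :
    w y ∈ ch₂ A₀ al be x' := sorry

theorem LQ.al_mem_ch₁ (H : LQ A₀ ϖ₀ q al be w γ Ow' V x') {r : F'}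
    (hr : r ∈ chart A₀.toSubring x') : al r ∈ ch₁ A₀ al be x' := sorry

theorem LQ.be_mem_ch₁ (H : LQ A₀ ϖ₀ q al be w γ Ow' V x') {r : F'}
    (hr : r ∈ chart A₀.toSubring x') : be r ∈ ch₁ A₀ al be x' := sorry

theorem LQ.al_mem_ch₂ (H : LQ A₀ ϖ₀ q al be w γ Ow' V x') {r : F'}
    (hr : r ∈ chart A₀.toSubring x'⁻¹) : al r ∈ ch₂ A₀ al be x' := sorry

theorem LQ.be_mem_ch₂ (H : LQ A₀ ϖ₀ q al be w γ Ow' V x') {r : F'}
    (hr : r ∈ chart A₀.toSubring x'⁻¹) : be r ∈ ch₂ A₀ al be x' := sorry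

theorem LQ.γ_mem_chart₁ (H : LQ A₀ ϖ₀ q al be w γ Ow' V x') {r : F'}
    (hr : r ∈ chart A₀.toSubring x') : γ r ∈ chart A₀.toSubring x' := sorry

theorem LQ.γ_mem_chart₂ (H : LQ A₀ ϖ₀ q al be w γ Ow' V x') {r : F'}
    (hr : r ∈ chart A₀.toSubring x'⁻¹) : γ r ∈ chart A₀.toSubring x'⁻¹ := sorry

theorem LQ.mem_ch₁_iff (H : LQ A₀ ϖ₀ q al be w γ Ow' V x') (z : F) :
    z ∈ ch₁ A₀ al be x' ↔ (∀ c, z ∈ V c) ∧ z ∈ chart (⊤ : Subring K₀) (xx al be x') := sorry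

theorem LQ.mem_ch₂_iff (H : LQ A₀ ϖ₀ q al be w γ Ow' V x') (z : F) :
    z ∈ ch₂ A₀ al be x' ↔ (∀ c, z ∈ V c) ∧ z ∈ chart (⊤ : Subring K₀) (xx al be x')⁻¹ := sorry

end Basic

/-! ### Nor : the components are normal (file Hub/Nor.lean) -/
section Nor

/-- residue degree one for `(v_0, β)` -/
theorem LQ.dense_one (H : LQ A₀ ϖ₀ q al be w γ Ow' V x') :
    ∀ y ∈ V 1, ∃ r ∈ Ow', (V 1).valuation (y - be r) < 1 := sorry

theorem LQ.kron_one (H : LQ A₀ ϖ₀ q al be w γ Ow' V x') :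
    ∀ f ∈ Ow', (V 1).valuation (al f - be (γ f) ^ q) < 1 := sorry

/-- The image of the chart `ch₁` in the residue field of `v_∞` is the image of `al B₁'`. -/
theorem LQ.nor₁ (H : LQ A₀ ϖ₀ q al be w γ Ow' V x') :
    ∀ y ∈ ch₁ A₀ al be x', ∃ r ∈ chart A₀.toSubring x', (V 0).valuation (y - al r) < 1 := sorry

theorem LQ.nor₂ (H : LQ A₀ ϖ₀ q al be w γ Ow' V x') :
    ∀ y ∈ ch₂ A₀ al be x', ∃ r ∈ chart A₀.toSubring x'⁻¹, (V 0).valuation (y - al r) < 1 := sorry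

theorem LQ.nor₁_one (H : LQ A₀ ϖ₀ q al be w γ Ow' V x') :
    ∀ y ∈ ch₁ A₀ al be x', ∃ r ∈ chart A₀.toSubring x', (V 1).valuation (y - be r) < 1 := sorry

theorem LQ.nor₂_one (H : LQ A₀ ϖ₀ q al be w γ Ow' V x') :
    ∀ y ∈ ch₂ A₀ al be x', ∃ r ∈ chart A₀.toSubring x'⁻¹, (V 1).valuation (y - be r) < 1 := sorry

/-- The image of `ch₁` in the residue field of `V c` is integrally closed. -/
theorem LQ.nor_closed₁ (H : LQ A₀ ϖ₀ q al be w γ Ow' V x') (c : Fin 2) :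
    ∀ z ∈ V c, ∀ p : F[X], p.Monic → (∀ j, p.coeff j ∈ ch₁ A₀ al be x') →
      (V c).valuation (p.eval z) < 1 → ∃ f ∈ ch₁ A₀ al be x', (V c).valuation (z - f) < 1 := sorry

theorem LQ.nor_closed₂ (H : LQ A₀ ϖ₀ q al be w γ Ow' V x') (c : Fin 2) :
    ∀ z ∈ V c, ∀ p : F[X], p.Monic → (∀ j, p.coeff j ∈ ch₂ A₀ al be x') →
      (V c).valuation (p.eval z) < 1 → ∃ f ∈ ch₂ A₀ al be x', (V c).valuation (z - f) < 1 := sorry

end Nor

end Fermat.Agent.BAD.LevelQ
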